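import Fermat.Agent.LU2.W
import Fermat.Agent.LU1.Series
import Fermat.Agent.LK3.Core

/-!
# S39/S40, U2: the slope of the unit at level `N p`, `4 ∣ N`
-/

set_option autoImplicit false
set_option maxHeartbeats 400000
set_option linter.unusedSectionVars false

noncomputable section

open AlgebraicCurve Module IntermediateField ModularCurve HahnSeries

attribute [-instance] Fermat.Agent.X0Places.ffField Fermat.Agent.X0Places.ffAlgebra

namespace Fermat.Agent.LU2

open Fermat.Agent.BadRed Fermat.Agent.LLp Fermat.Agent.LLu Fermat.Agent.LLn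
open Fermat.Agent.FunField Fermat.Agent.FunField.PlaceLemmas Fermat.Agent.Deuring
open Fermat.Agent.Igusa Fermat.Agent.AtkinLehner
open Fermat.Agent.MzCusp (uL uL_ne_zero)
open Fermat.Agent.LU1 (vL vL_ne_zero vL_pow coeffMap_vL)

section Residue

variable {L : Type*} [Field L] (A : ValuationSubring L) {κ : Type*} [Field κ] (π : A →+* κ)
  (p : ℕ) [NeZero p]

theorem vL_mem_gauss : vL L p ∈ gaussRing A π := by
  rw [← coeffMap_vL p A.subtype]
  exact emb_mem_gaussRing _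

theorem gaussRes_vL (h : vL L p ∈ gaussRing A π) : gaussRes A π ⟨vL L p, h⟩ = vL κ p := by
  have h1 := gaussRes_emb (π := π) (vL A p)
  rw [coeffMap_vL p π] at h1
  rw [← h1]
  exact gaussRes_congr (coeffMap_vL p A.subtype).symm

theorem isV_vL [NeZero (4 * p)] (h : vL L p ∈ modularFunctionFieldFullC L (4 * p)) :
    IsV L p (vL L p) := ⟨h, vL_pow L p⟩

end Residue

section Gen

variable {L : Type*} [Field L] [Algebra ℚ L] [IsAlgClosed L] [CharZero L] (ι : L →+* ℂ)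
  (A : ValuationSubring L) {κ : Type*} [Field κ] [IsAlgClosed κ] (π : A →+* κ) [IsLocalHom π]
  (hπ : Function.Surjective π) (harch : ArchA π)
  (N r : ℕ) [hr : Fact r.Prime] [hN : NeZero N] [CharP κ r] (hrN : ¬ r ∣ N) (h4 : 4 ∣ N)
  (hv : IsV L r (vL L r))

include hπ harch hrN h4 hv in
/-- the residue of `v₀` is in `F_N(κ)` -/
theorem vL_mem_full_res : vL κ r ∈ modularFunctionFieldFullC κ N := by
  have h := (VV₁ A π hπ harch N r hrN).r
    ⟨v0 h4 hv, by
      rw [mem_VV₁, mem_O₁, coe_v0]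
      exact vL_mem_gauss A π r⟩ |>.2
  rw [coe_VV₁_r A π hπ harch N r hrN _ (by
    rw [mem_O₁, coe_v0]
    exact vL_mem_gauss A π r)] at h
  have e : res₁ A π N r ⟨v0 h4 hv, by
      rw [mem_O₁, coe_v0]
      exact vL_mem_gauss A π r⟩ = vL κ r := by
    rw [← gaussRes_vL A π r (vL_mem_gauss A π r)]
    exact gaussRes_congr (coe_v0 h4 hv)
  rwa [e] at h

include ι in
theorem v0_mem_rr (g : FrobPencil (twoVal A π hπ harch N r hrN).toRData)
    (hg : (g.t : modularFunctionFieldFullC L (N * r)) = HeckeRed.jF L (N * r) * CP.jrF L N r) :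
    ∃ c : ℕ, v0 h4 hv ∈ riemannRochSpace (c • g.E) ∧
      (v0 h4 hv)⁻¹ ∈ riemannRochSpace (c • g.E) := by
  have : NeZero (N * r) := ⟨mul_ne_zero (NeZero.ne N) hr.out.ne_zero⟩
  have hu0 : v0 h4 hv ≠ 0 := v0_ne_zero h4 hv
  have hE : g.E = (poleDiv (g.t : modularFunctionFieldFullC L (N * r)) :
      Divisor L (modularFunctionFieldFullC L (N * r))) := by
    ext v
    rw [g.hE, poleDiv_apply, max_comm]
  have hord : ∀ v : Place L (modularFunctionFieldFullC L (N * r)),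
      0 ≤ v.ord (g.t : modularFunctionFieldFullC L (N * r)) → v.ord (v0 h4 hv) = 0 := by
    intro v hv'
    rw [hg] at hv'
    exact ord_v ι N r h4 hv rfl (v0 h4 hv) (HeckeRed.jF L (N * r)) (coe_v0 h4 hv)
      rfl v (j_reg_of_t_reg N r hrN v hv')
  obtain ⟨c₁, h₁⟩ := exists_mem_rr_poleDiv (K := L)
    (t := (g.t : modularFunctionFieldFullC L (N * r))) hu0 (fun v hv => (hord v hv).ge)
  obtain ⟨c₂, h₂⟩ := exists_mem_rr_poleDiv (K := L)
    (t := (g.t : modularFunctionFieldFullC L (N * r)))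
    (inv_ne_zero hu0) (fun v hv => by rw [v.ord_inv, hord v hv, neg_zero])
  refine ⟨max c₁ c₂, ?_, ?_⟩
  · rw [hE]; exact h₁ _ (le_max_left _ _)
  · rw [hE]; exact h₂ _ (le_max_right _ _)

include ι in
/-- the slope of `v₀` is two -/
theorem slopeAt_v0 (vb : modularFunctionFieldFullC κ N) (hvb : (vb : LaurentSeries κ) = vL κ r) :
    ∃ ω : κ, ω ≠ 0 ∧
      (twoVal A π hπ harch N r hrN).SlopeAt (r : L) (v0 h4 hv) 2 vb (ω • vb⁻¹) := by
  have hub0 : vb ≠ 0 := by
    rintro rfl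
    exact vL_ne_zero κ r hvb.symm
  have hr0 : (r : L) ≠ 0 := Nat.cast_ne_zero.mpr hr.out.ne_zero
  have hu0 : v0 h4 hv ≠ 0 := v0_ne_zero h4 hv
  have h1 : (twoVal A π hπ harch N r hrN).V₁.ER (v0 h4 hv) vb := by
    rw [er₁_gauss]
    have hm : ((v0 h4 hv : modularFunctionFieldFullC L (N * r)) : LaurentSeries L) ∈
        gaussRing A π := by
      rw [coe_v0]; exact vL_mem_gauss A π r
    refine ⟨hm, ?_⟩
    rw [hvb, ← gaussRes_vL A π r (vL_mem_gauss A π r)]
    exact CP.gaussRes_congr' (coe_v0 h4 hv) _ _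
  obtain ⟨c, hc, hw⟩ : ∃ c : L, c ^ 6 = (r : L) ^ 12 ∧
      ww L N r hrN (v0 h4 hv) * v0 h4 hv =
        algebraMap L (modularFunctionFieldFullC L (N * r)) c := w_v0 ι N _ _ _ h4 hv
  have hr2 : (r : L) ^ 2 ≠ 0 := pow_ne_zero _ hr0
  have hz : (c * ((r : L) ^ 2)⁻¹) ^ 6 = 1 := by
    rw [mul_pow, hc, inv_pow, ← pow_mul]
    exact mul_inv_cancel₀ (pow_ne_zero _ hr0)
  have hzA : c * ((r : L) ^ 2)⁻¹ ∈ A := by
    have h2 : IsIntegral A (c * ((r : L) ^ 2)⁻¹) := by
      refine ⟨Polynomial.X ^ 6 - Polynomial.C 1, Polynomial.monic_X_pow_sub_C 1 (by norm_num), ?_⟩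
      rw [Polynomial.eval₂_sub, Polynomial.eval₂_X_pow, Polynomial.eval₂_C, hz, map_one, sub_self]
    obtain ⟨a, ha⟩ := (IsIntegrallyClosed.isIntegral_iff (R := A) (K := L)).mp h2
    rw [← ha]
    exact a.2
  let z : A := ⟨c * ((r : L) ^ 2)⁻¹, hzA⟩
  have hz' : z ^ 6 = 1 := Subtype.ext hz
  have hω : π z ≠ 0 := by
    intro h0
    have := congrArg π hz'
    rw [map_pow, h0, map_one, zero_pow (by norm_num)] at this
    exact zero_ne_one this
  refine ⟨π z, hω, hub0, ?_, 1, one_ne_zero, by rw [one_smul]; exact h1, ?_⟩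
  · rw [Algebra.smul_def]
    exact mul_ne_zero (by rwa [Ne, map_eq_zero]) (inv_ne_zero hub0)
  rw [er₂_iff]
  have h2 : ww L N r hrN ((1 * ((r : L) ^ (2 : ℤ))⁻¹) • v0 h4 hv) =
      algebraMap L (modularFunctionFieldFullC L (N * r)) (z : L) * (v0 h4 hv)⁻¹ := by
    rw [one_mul, Algebra.smul_def, map_mul, AlgEquiv.commutes, map_inv₀]
    have h3 : ww L N r hrN (v0 h4 hv) =
        algebraMap L (modularFunctionFieldFullC L (N * r)) c * (v0 h4 hv)⁻¹ := by
      rw [← hw, mul_assoc, mul_inv_cancel₀ hu0, mul_one]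
    have h5 : ((r : L) ^ (2 : ℤ)) = (r : L) ^ 2 := by norm_cast
    rw [h3, ← mul_assoc, h5]
    congr 1
    show _ = algebraMap L (modularFunctionFieldFullC L (N * r)) (c * ((r : L) ^ 2)⁻¹)
    rw [map_mul, map_inv₀]
    exact mul_comm _ _
  rw [h2, Algebra.smul_def]
  exact (ResVal.ER.cst (V := (twoVal A π hπ harch N r hrN).V₁) z).mul (h1.inv hub0)

end Gen

section Qbar

local notation "Qb" => AlgebraicClosure ℚ

variable {κ : Type*} [Field κ] [IsAlgClosed κ]
  (A : ValuationSubring Qb) (π : A →+* κ) [IsLocalHom π] (hπ : Function.Surjective π)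
  (harch : ArchA π)
  (N p : ℕ) [hp : Fact p.Prime] [hN : NeZero N] [CharP κ p] (hpN : ¬ p ∣ N)
  (hg : genusFF κ (modularFunctionFieldFullC κ N) = genusFF Qb (modularFunctionFieldFullC Qb N))
  (d : CP.DecAut A π) (hd : CP.IsFrob d p)

/-- **the unit of slope two** -/
theorem exists_unitDat (ι : Qb →+* ℂ) (hp2 : p ≠ 2) (h4 : 4 ∣ N) (hv : IsV Qb p (vL Qb p)) :
    ∃ (vb : modularFunctionFieldFullC κ N) (b₂ : modularFunctionFieldFullC κ N),
      (vb : LaurentSeries κ) = vL κ p ∧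
      LK3.UnitDat A π hπ harch N p hpN hg d hd (v0 h4 hv) vb b₂ 2 := by
  let vb : modularFunctionFieldFullC κ N := ⟨vL κ p, vL_mem_full_res A π hπ harch N p hpN h4 hv⟩
  obtain ⟨ω, -, hs⟩ := slopeAt_v0 ι A π hπ harch N p hpN h4 hv vb rfl
  exact ⟨vb, ω • vb⁻¹, rfl, by norm_num, by
    have := hp.out.two_le
    omega, hs, v0_mem_rr ι A π hπ harch N p hpN h4 hv _ (CP.pen_t A π hπ harch N p hpN hg d hd)⟩

end Qbar

end Fermat.Agent.LU2
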