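import Fermat.Agent.LU2.UDat

/-!
# S39/S40, U2 (iii): the orders of the residue of the unit of slope two
-/

set_option autoImplicit false
set_option maxHeartbeats 400000
set_option linter.unusedSectionVars false

noncomputable section

open AlgebraicCurve Module IntermediateField ModularCurve HahnSeries

attribute [-instance] Fermat.Agent.X0Places.ffField Fermat.Agent.X0Places.ffAlgebra

namespace Fermat.Agent.LU2

open Fermat.Agent.BadRed Fermat.Agent.LLp Fermat.Agent.LLu Fermat.Agent.LLn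
open Fermat.Agent.FunField Fermat.Agent.FunField.PlaceLemmas Fermat.Agent.Deuring
open Fermat.Agent.Igusa Fermat.Agent.AtkinLehner
open Fermat.Agent.LU1 (vL)

local notation "Qb" => AlgebraicClosure ℚ

variable {κ : Type*} [Field κ] [IsAlgClosed κ]
  {A : ValuationSubring Qb} {π : A →+* κ} [IsLocalHom π] {hπ : Function.Surjective π}
  {harch : ArchA π}
  {N p : ℕ} [hp : Fact p.Prime] [hN : NeZero N] [CharP κ p] {hpN : ¬ p ∣ N}
  {hg : genusFF κ (modularFunctionFieldFullC κ N) = genusFF Qb (modularFunctionFieldFullC Qb N)}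
  {d : CP.DecAut A π} {hd : CP.IsFrob d p}

/-- the orders of the residue of an abstract unit at affine places -/
theorem ord_cases {u : modularFunctionFieldFullC Qb (N * p)} {b₁ b₂ : modularFunctionFieldFullC κ N}
    {s : ℕ} (U : LK3.UnitDat A π hπ harch N p hpN hg d hd u b₁ b₂ s) (hA : A.LiesOverPrime p)
    (v : Place κ (modularFunctionFieldFullC κ N)) (hv : 0 ≤ v.ord (HeckeRed.jF κ N)) :
    v.ord b₁ = 0 ∨ (1 ≤ v.ord b₁ ∧ v.ord b₁ ≤ s) := by
  have i0 : NeZero (N * p) := ⟨mul_ne_zero (NeZero.ne N) hp.out.ne_zero⟩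
  have H := CP.pen_hyp A π hπ harch N p hpN hg d hd
  choose pl hpl using fun x : (CP.pen A π hπ harch N p hpN hg d hd).Pt =>
    exists_at (p := (CP.pen A π hπ harch N p hpN hg d hd).toPencil) H.hpos
      ((CP.pen A π hπ harch N p hpN hg d hd).frPt x)
  by_cases hne : ∀ x, pl x ≠ v
  · exact Or.inl (U.ord_eq_zero hpl v hv hne)
  · push Not at hne
    obtain ⟨x, rfl⟩ := hne
    exact Or.inr ((U.node hA x).1 _ (hpl x))

/-- **orders of the residue of `v₀`** -/
theorem ord_vb_cases (ι : Qb →+* ℂ) (hπ : Function.Surjective π) (harch : ArchA π)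
    (hpN : ¬ p ∣ N)
    (hg : genusFF κ (modularFunctionFieldFullC κ N) =
      genusFF Qb (modularFunctionFieldFullC Qb N))
    (d : CP.DecAut A π) (hd : CP.IsFrob d p) (hA : A.LiesOverPrime p)
    (hp2 : p ≠ 2) (h4 : 4 ∣ N) (hu : IsV Qb p (vL Qb p))
    (vb : modularFunctionFieldFullC κ N) (hvb : (vb : LaurentSeries κ) = vL κ p)
    (v : Place κ (modularFunctionFieldFullC κ N)) (hv : 0 ≤ v.ord (HeckeRed.jF κ N)) :
    v.ord vb = 0 ∨ (1 ≤ v.ord vb ∧ v.ord vb ≤ 2) := by
  obtain ⟨vb', b₂, h1, U⟩ := exists_unitDat A π hπ harch N p hpN hg d hd ι hp2 h4 hu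
  obtain rfl : vb = vb' := Subtype.ext (hvb.trans h1.symm)
  exact ord_cases U hA v hv

end Fermat.Agent.LU2
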