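import Fermat.Agent.LU2.Abs
import Fermat.Agent.LU1.Series
import Fermat.Agent.BadRed.CPData
import Fermat.Agent.TorsInj.Nonspecial
import Fermat.Agent.Cusps.OrdVal
import Fermat.Agent.ModDeg.DegreeClosed
import Fermat.Agent.LA3b.UL

/-!
# S39/S40, U2: in characteristic `p` the order of `u = Δ(q)/Δ(q^p)` is six times the order of `v`
-/

set_option autoImplicit false
set_option maxHeartbeats 400000
set_option linter.unusedSectionVars false

noncomputable section

open HahnSeries ModularCurve AlgebraicCurve Module IntermediateField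

attribute [-instance] Fermat.Agent.X0Places.ffField Fermat.Agent.X0Places.ffAlgebra

namespace Fermat.Agent.LU2

open Fermat.Agent.FunField Fermat.Agent.FunField.PlaceLemmas Fermat.Agent.Igusa
  Fermat.Agent.BadRed
open Fermat.Agent.MzCusp (uL uL_ne_zero coeffMap_uL deltaL deltaInvL deltaL_mul_inv
  coeffMap_deltaInvL)
open Fermat.Agent.LLu

section Reg

theorem finrank_jF (K : Type*) [Field K] [IsAlgClosed K] {M : ℕ} [NeZero M] (hM : (M : K) ≠ 0) :
    finrank K⟮HeckeRed.jF K M⟯ (modularFunctionFieldFullC K M) = dedekindPsi M := by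
  have h2 : finrank K⟮HeckeRed.jF K M⟯ (modularFunctionFieldFullC K M) =
      relfinrank K⟮((HeckeRed.jF K M : modularFunctionFieldFullC K M) : LaurentSeries K)⟯
        (modularFunctionFieldFullC K M) :=
    Cusps.finrank_adjoin_eq_relfinrank _ _
  rw [h2]
  exact ModDeg.relfinrank_full_of_isAlgClosed M hM

variable {L : Type*} [Field L] [IsAlgClosed L] {A : ValuationSubring L} {κ : Type*} [Field κ]
  [IsAlgClosed κ] {π : A →+* κ} [IsLocalHom π] (hπ : Function.Surjective π) {M : ℕ} [NeZero M]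
  (hML : (M : L) ≠ 0) (hMκ : (M : κ) ≠ 0)

include hπ hML hMκ in
/-- **the residue of a function without poles outside the cusps has no pole outside the cusps** -/
theorem ord_res_nonneg {f : modularFunctionFieldFullC L M} (hf0 : f ≠ 0)
    (hf : (f : LaurentSeries L) ∈ gaussRing A π)
    (hreg : ∀ v : Place L (modularFunctionFieldFullC L M), 0 ≤ v.ord (HeckeRed.jF L M) →
      0 ≤ v.ord f)
    (fb : modularFunctionFieldFullC κ M) (hfb0 : fb ≠ 0)
    (hfb : (fb : LaurentSeries κ) = gaussRes A π ⟨(f : LaurentSeries L), hf⟩)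
    (v : Place κ (modularFunctionFieldFullC κ M)) (hv : 0 ≤ v.ord (HeckeRed.jF κ M)) :
    0 ≤ v.ord fb := by
  obtain ⟨c, hc⟩ := exists_mem_rr_poleDiv (K := L) hf0 hreg
  have hO : f ∈ (CP.data₀ (N := M) hπ hML hMκ).O := (CP.mem_data₀_O hπ).mpr hf
  have hres : (CP.data₀ (N := M) hπ hML hMκ).res ⟨f, hO⟩ = fb :=
    Subtype.ext ((CP.data₀_res hπ hO).trans hfb.symm)
  have hres_j := CP.res_j₀ (hNL := hML) hπ hMκ
  have h1 := red_rr_poleDiv_le (CP.data₀ (N := M) hπ hML hMκ)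
    (TorsInj.rrLarge_genusFF (K := L) (F := modularFunctionFieldFullC L M))
    (j := CP.j₀ (hNL := hML) hπ hMκ) (HeckeRed.transcendental_jF L M)
    (by rw [hres_j]; exact HeckeRed.transcendental_jF κ M)
    (by
      rw [hres_j, finrank_jF κ hMκ]
      exact finrank_jF L hML) c
  have h2 : fb ∈ (CP.data₀ (N := M) hπ hML hMκ).red
      (riemannRochSpace (c • (poleDiv (HeckeRed.jF L M) :
        Divisor L (modularFunctionFieldFullC L M)))) := ⟨⟨f, hO⟩, hc c le_rfl, hres⟩
  have h3 := h1 h2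
  rw [hres_j, mem_rr_nsmul_poleDiv hfb0] at h3
  have h4 := h3 v
  rw [max_eq_right (by linarith), mul_zero] at h4
  linarith

include hπ hML hMκ in
/-- the same with integral expansions -/
theorem ord_nonneg_of_int {P : LaurentSeries A} {f : modularFunctionFieldFullC L M} (hf0 : f ≠ 0)
    (hf : (f : LaurentSeries L) = coeffMap A.subtype P)
    (hreg : ∀ v : Place L (modularFunctionFieldFullC L M), 0 ≤ v.ord (HeckeRed.jF L M) →
      0 ≤ v.ord f)
    (fb : modularFunctionFieldFullC κ M) (hfb0 : fb ≠ 0)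
    (hfb : (fb : LaurentSeries κ) = coeffMap π P)
    (v : Place κ (modularFunctionFieldFullC κ M)) (hv : 0 ≤ v.ord (HeckeRed.jF κ M)) :
    0 ≤ v.ord fb := by
  have hm : (f : LaurentSeries L) ∈ gaussRing A π := by
    rw [hf]
    exact emb_mem_gaussRing P
  have h1 : gaussRes A π ⟨(f : LaurentSeries L), hm⟩ = coeffMap π P :=
    (gaussRes_congr (x := ⟨(f : LaurentSeries L), hm⟩) hf).trans (gaussRes_emb P)
  exact ord_res_nonneg hπ hML hMκ hf0 hm hreg fb hfb0 (hfb.trans h1.symm) v hv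

include hπ hML hMκ in
/-- **the residue of a unit outside the cusps is a unit outside the cusps** -/
theorem ord_eq_zero_of_int {P Q : LaurentSeries A} (hPQ : P * Q = 1)
    {f : modularFunctionFieldFullC L M}
    (hf : (f : LaurentSeries L) = coeffMap A.subtype P)
    (hreg : ∀ v : Place L (modularFunctionFieldFullC L M), 0 ≤ v.ord (HeckeRed.jF L M) →
      v.ord f = 0)
    (fb : modularFunctionFieldFullC κ M)
    (hfb : (fb : LaurentSeries κ) = coeffMap π P)
    (v : Place κ (modularFunctionFieldFullC κ M)) (hv : 0 ≤ v.ord (HeckeRed.jF κ M)) :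
    v.ord fb = 0 := by
  have e1 : (f : LaurentSeries L) * coeffMap A.subtype Q = 1 := by
    rw [hf, ← map_mul, hPQ, map_one]
  have e2 : (fb : LaurentSeries κ) * coeffMap π Q = 1 := by
    rw [hfb, ← map_mul, hPQ, map_one]
  have hf0 : f ≠ 0 := by
    rintro rfl
    exact one_ne_zero (e1.symm.trans (zero_mul _))
  have hfb0 : fb ≠ 0 := by
    rintro rfl
    exact one_ne_zero (e2.symm.trans (zero_mul _))
  have e3 : ((f⁻¹ : modularFunctionFieldFullC L M) : LaurentSeries L) = coeffMap A.subtype Q :=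
    inv_eq_of_mul_eq_one_right e1
  have e4 : ((fb⁻¹ : modularFunctionFieldFullC κ M) : LaurentSeries κ) = coeffMap π Q :=
    inv_eq_of_mul_eq_one_right e2
  have h1 := ord_nonneg_of_int hπ hML hMκ hf0 hf (fun v hv => (hreg v hv).ge) fb hfb0 hfb v hv
  have h2 := ord_nonneg_of_int hπ hML hMκ (inv_ne_zero hf0) e3
    (fun v hv => by rw [v.ord_inv, hreg v hv, neg_zero]) fb⁻¹ (inv_ne_zero hfb0) e4 v hv
  rw [v.ord_inv] at h2
  omega

include hπ hML hMκ in
/-- residues of elements of level `M` with integral expansions are in the field of level `M` -/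
theorem mem_full_of_int {P : LaurentSeries A} {f : modularFunctionFieldFullC L M}
    (hf : (f : LaurentSeries L) = coeffMap A.subtype P) :
    coeffMap π P ∈ modularFunctionFieldFullC κ M := by
  have hm : (f : LaurentSeries L) ∈ gaussRing A π := by
    rw [hf]
    exact emb_mem_gaussRing P
  have hO : f ∈ (CP.data₀ (N := M) hπ hML hMκ).O := (CP.mem_data₀_O hπ).mpr hm
  have h1 : (((CP.data₀ (N := M) hπ hML hMκ).res ⟨f, hO⟩ : modularFunctionFieldFullC κ M) :
      LaurentSeries κ) = coeffMap π P :=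
    (CP.data₀_res hπ hO).trans
      ((gaussRes_congr (x := ⟨(f : LaurentSeries L), hm⟩) hf).trans (gaussRes_emb P))
  rw [← h1]
  exact ((CP.data₀ (N := M) hπ hML hMκ).res ⟨f, hO⟩).2

end Reg

section Alg

variable (κ : Type*) [Field κ] (p : ℕ) [hp : Fact p.Prime] [CharP κ p]

/-- `u(q²) = u (Δ(q)/Δ(q²))^(p-1)` in characteristic `p` -/
theorem qExpand_two_uL : qExpand κ 2 (uL κ p) = uL κ p * uL κ 2 ^ (p - 1) := by
  have hI := LA3b.qExpand_deltaInvL κ p
  have h1 := deltaL_mul_inv κ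
  have h2 : qExpand κ 2 (deltaL κ) * qExpand κ 2 (deltaInvL κ) = 1 := by
    rw [← map_mul, h1, map_one]
  have e2 : uL κ 2 ≠ 0 := uL_ne_zero 2 κ
  apply mul_right_cancel₀ e2
  have h3 : uL κ 2 ^ (p - 1) * uL κ 2 = uL κ 2 ^ p := by
    rw [← pow_succ, Nat.sub_add_cancel hp.out.one_le]
  rw [mul_assoc, h3]
  rw [uL, uL, hI, map_mul, map_pow, mul_pow]
  calc _ = deltaL κ * qExpand κ 2 (deltaInvL κ) ^ p *
        (qExpand κ 2 (deltaL κ) * qExpand κ 2 (deltaInvL κ)) := by ring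
    _ = deltaL κ * qExpand κ 2 (deltaInvL κ) ^ p * (deltaL κ * deltaInvL κ) ^ p := by
        rw [h1, h2, one_pow]
    _ = _ := by ring

/-- `u(q⁴) = u (Δ(q)/Δ(q²))^(p-1) (Δ(q²)/Δ(q⁴))^(p-1)` in characteristic `p` -/
theorem qExpand_four_uL : qExpand κ 4 (uL κ p) =
    uL κ p * (uL κ 2 * qExpand κ 2 (uL κ 2)) ^ (p - 1) := by
  have h1 := congrArg (qExpand κ 2) (qExpand_two_uL κ p)
  rw [qExpand_qExpand, map_mul, map_pow, qExpand_two_uL κ p] at h1
  have h2 : qExpand κ (2 * 2) (uL κ p) = qExpand κ 4 (uL κ p) := qExpand_congr rfl _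
  rw [← h2, h1, mul_pow]
  ring

end Alg

section Six

variable {L : Type*} [Field L] [Algebra ℚ L] [IsAlgClosed L] (ι : L →+* ℂ)
  {A : ValuationSubring L} {κ : Type*} [Field κ] [IsAlgClosed κ] {π : A →+* κ} [IsLocalHom π]
  (hπ : Function.Surjective π) {N p : ℕ} [NeZero N] [hp : Fact p.Prime] [CharP κ p]
  (hMκ : ((N * 4 : ℕ) : κ) ≠ 0)

include ι hπ hMκ in
/-- `Δ(q)/Δ(q²)` and `Δ(q²)/Δ(q⁴)` at level `4 N` in characteristic `p`, units outside the cusps. -/
theorem exists_units : ∃ e f : modularFunctionFieldFullC κ (N * 4),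
    (e : LaurentSeries κ) = uL κ 2 ∧ (f : LaurentSeries κ) = qExpand κ 2 (uL κ 2) ∧
    ∀ v : Place κ (modularFunctionFieldFullC κ (N * 4)), 0 ≤ v.ord (HeckeRed.jF κ (N * 4)) →
      v.ord e = 0 ∧ v.ord f = 0 := by
  have hML : ((N * 4 : ℕ) : L) ≠ 0 := by
    have : CharZero L := algebraRat.charZero L
    exact Nat.cast_ne_zero.mpr (NeZero.ne (N * 4))
  have i2 : Fact (Nat.Prime 2) := ⟨Nat.prime_two⟩
  have hN4 : N * 4 = N * 2 * 2 := by ring
  have hE : modularFunctionFieldFullC L (N * 4) = modularFunctionFieldFullC L (N * 2 * 2) := by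
    rw [hN4]
  have m1 : uL L 2 ∈ modularFunctionFieldFullC L (N * 4) := by
    have := qExpand_mem_dvd L (M := 2) (d := 1) (K := N * 4) (by omega) (uL_mem_p ι 2)
    rwa [qExpand_one_apply] at this
  have m2 : qExpand L 2 (uL L 2) ∈ modularFunctionFieldFullC L (N * 4) :=
    qExpand_mem_dvd L (M := 2) (d := 2) (K := N * 4) ⟨N, by ring⟩ (uL_mem_p ι 2)
  have c1 : ((⟨uL L 2, m1⟩ : modularFunctionFieldFullC L (N * 4)) : LaurentSeries L) =
      coeffMap A.subtype (uL A 2) := (coeffMap_uL 2 A.subtype).symm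
  have c2 : ((⟨qExpand L 2 (uL L 2), m2⟩ : modularFunctionFieldFullC L (N * 4)) :
      LaurentSeries L) = coeffMap A.subtype (qExpand A 2 (uL A 2)) := by
    rw [coeffMap_qExpand, coeffMap_uL 2 A.subtype]
  have k1 : uL κ 2 = coeffMap π (uL A 2) := (coeffMap_uL 2 π).symm
  have k2 : qExpand κ 2 (uL κ 2) = coeffMap π (qExpand A 2 (uL A 2)) := by
    rw [coeffMap_qExpand, coeffMap_uL 2 π]
  have u1 := Fermat.Agent.MzCusp.uL_mul A 2
  have u2 : qExpand A 2 (uL A 2) *
      qExpand A 2 (deltaInvL A * qExpand A 2 (deltaL A)) = 1 := by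
    rw [← map_mul, u1, map_one]
  have n1 := mem_full_of_int hπ hML hMκ c1
  have n2 := mem_full_of_int hπ hML hMκ c2
  rw [← k1] at n1
  rw [← k2] at n2
  refine ⟨⟨_, n1⟩, ⟨_, n2⟩, rfl, rfl, fun v hv => ⟨?_, ?_⟩⟩
  · refine ord_eq_zero_of_int hπ hML hMκ u1 c1 (fun w hw => ?_) ⟨_, n1⟩ k1 v hv
    exact ord_ud ι (N * 2) 2 (d := 1) (one_dvd _) hE _ (HeckeRed.jF L (N * 4))
      (qExpand_one_apply _).symm rfl w hw
  · refine ord_eq_zero_of_int hπ hML hMκ u2 c2 (fun w hw => ?_) ⟨_, n2⟩ k2 v hv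
    exact ord_ud ι (N * 2) 2 (d := 2) ⟨N, by ring⟩ hE _ (HeckeRed.jF L (N * 4))
      rfl rfl w hw

include ι hπ hMκ in
/-- **`ord u = 6 ord v` outside the cusps in characteristic `p`.** -/
theorem ord_six (w vb : modularFunctionFieldFullC κ (N * 4))
    (hw : (w : LaurentSeries κ) = uL κ p) (hvb : (vb : LaurentSeries κ) = LU1.vL κ p)
    (v : Place κ (modularFunctionFieldFullC κ (N * 4)))
    (hv : 0 ≤ v.ord (HeckeRed.jF κ (N * 4))) : v.ord w = 6 * v.ord vb := by
  obtain ⟨e, f, he, hf, hef⟩ := exists_units ι hπ hMκ (N := N)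
  obtain ⟨h1, h2⟩ := hef v hv
  have hw0 : w ≠ 0 := by
    rintro rfl
    exact uL_ne_zero p κ hw.symm
  have hv0 : vb ≠ 0 := by
    rintro rfl
    exact LU1.vL_ne_zero κ p hvb.symm
  have he0 : e ≠ 0 := by
    rintro rfl
    exact uL_ne_zero 2 κ he.symm
  have hf0 : f ≠ 0 := by
    rintro rfl
    have : qExpand κ 2 (uL κ 2) ≠ 0 := by
      rw [map_ne_zero_iff _ (qExpand_injective (R := κ) 2)]
      exact uL_ne_zero 2 κ
    exact this hf.symm
  have key : vb ^ 6 * w ^ 2 * (w * (e * f) ^ (p - 1)) ^ 2 = (w * e ^ (p - 1)) ^ 5 := by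
    apply Subtype.ext
    show (vb : LaurentSeries κ) ^ 6 * (w : LaurentSeries κ) ^ 2 *
      ((w : LaurentSeries κ) * ((e : LaurentSeries κ) * (f : LaurentSeries κ)) ^ (p - 1)) ^ 2 =
      ((w : LaurentSeries κ) * (e : LaurentSeries κ) ^ (p - 1)) ^ 5
    rw [hw, hvb, he, hf, ← qExpand_four_uL κ p, ← qExpand_two_uL κ p]
    exact LU1.vL_pow κ p
  have h3 := congrArg v.ord key
  rw [v.ord_mul (mul_ne_zero (pow_ne_zero _ hv0) (pow_ne_zero _ hw0))
      (pow_ne_zero _ (mul_ne_zero hw0 (pow_ne_zero _ (mul_ne_zero he0 hf0)))),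
    v.ord_mul (pow_ne_zero _ hv0) (pow_ne_zero _ hw0), ord_pow, ord_pow, ord_pow, ord_pow,
    v.ord_mul hw0 (pow_ne_zero _ (mul_ne_zero he0 hf0)), v.ord_mul hw0 (pow_ne_zero _ he0),
    ord_pow, ord_pow, v.ord_mul he0 hf0, h1, h2] at h3
  push_cast at h3
  omega

end Six

end Fermat.Agent.LU2
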