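import Fermat.Agent.LLu.UnitRes
import Fermat.Agent.KPr.CuspGal

/-!
# S39/S40, U2: a modular unit of weight zero and slope two at level `N p`, `4 ∣ N`

`IsV L p x`: the `q`-expansion `x` of `G(z) / G(p z)`, `G = θ⁴`.
-/

set_option autoImplicit false
set_option maxHeartbeats 400000
set_option linter.unusedSectionVars false

noncomputable section

open HahnSeries ModularCurve AlgebraicCurve

attribute [-instance] Fermat.Agent.X0Places.ffField Fermat.Agent.X0Places.ffAlgebra

namespace Fermat.Agent.LU2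

open Fermat.Agent.FunField Fermat.Agent.FunField.PlaceLemmas
open Fermat.Agent.X0Places (FF)
open Fermat.Agent.MzCusp (uL uL_ne_zero)
open Fermat.Agent.HeckeRed Fermat.Agent.ModPoly Fermat.Agent.ModDeg Fermat.Agent.LLu

/-- the abstract unit: an element of level `4 p` with
`x⁶ u(q)² u(q⁴)² = u(q²)⁵`, where `u = Δ(z)/Δ(p z)` -/
structure IsV (L : Type*) [Field L] (p : ℕ) [NeZero p] (x : LaurentSeries L) : Prop where
  mem : x ∈ modularFunctionFieldFullC L (4 * p)
  pow6 : x ^ 6 * (uL L p) ^ 2 * (qExpand L 4 (uL L p)) ^ 2 = (qExpand L 2 (uL L p)) ^ 5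

section Th

variable (L : Type*) [Field L]

theorem qExpand_mem_dvd {M d K : ℕ} [NeZero M] [NeZero d] [NeZero K] (h : M * d ∣ K)
    {x : LaurentSeries L} (hx : x ∈ modularFunctionFieldFullC L M) :
    qExpand L d x ∈ modularFunctionFieldFullC L K := by
  have : NeZero (M * d) := ⟨mul_ne_zero (NeZero.ne M) (NeZero.ne d)⟩
  exact full_degeneracyC_le L h (full_degeneracyC_map_le L M d ⟨x, hx, rfl⟩)

/-- the degeneracy map `f(q) ↦ f(q^d)` from level `M` to level `K`, `M d ∣ K` -/
def th {M d K : ℕ} [NeZero M] [NeZero d] [NeZero K] (h : M * d ∣ K) :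
    modularFunctionFieldFullC L M →ₐ[L] modularFunctionFieldFullC L K :=
  ((qExpandAlgHomC L d).comp (modularFunctionFieldFullC L M).val).codRestrict
    (modularFunctionFieldFullC L K).toSubalgebra
    (fun x => qExpand_mem_dvd L h x.2)

variable {L}

theorem coe_th {M d K : ℕ} [NeZero M] [NeZero d] [NeZero K] (h : M * d ∣ K)
    (x : modularFunctionFieldFullC L M) :
    (th L h x : LaurentSeries L) = qExpand L d (x : LaurentSeries L) := rfl

end Th

section Char0

variable {L : Type*} [Field L] {N p : ℕ} [NeZero N] [hp : Fact p.Prime]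

theorem IsV.ne_zero {x : LaurentSeries L} (hx : IsV L p x) : x ≠ 0 := by
  rintro rfl
  have h := hx.pow6
  rw [zero_pow (by norm_num), zero_mul, zero_mul] at h
  exact pow_ne_zero 5 (qExpand_ne_zero' (p := 2) (uL_ne_zero p L)) h.symm

theorem IsV.mem_level (h4 : 4 ∣ N) {x : LaurentSeries L} (hx : IsV L p x) :
    x ∈ modularFunctionFieldFullC L (N * p) :=
  full_degeneracyC_le L (Nat.mul_dvd_mul_right h4 p) hx.mem

/-- the modular unit at level `N p` -/
def v0 (h4 : 4 ∣ N) {x : LaurentSeries L} (hx : IsV L p x) :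
    modularFunctionFieldFullC L (N * p) := ⟨x, hx.mem_level h4⟩

theorem coe_v0 (h4 : 4 ∣ N) {x : LaurentSeries L} (hx : IsV L p x) :
    (v0 h4 hx : LaurentSeries L) = x := rfl

theorem v0_ne_zero (h4 : 4 ∣ N) {x : LaurentSeries L} (hx : IsV L p x) : v0 h4 hx ≠ 0 := by
  intro h
  exact hx.ne_zero (congrArg Subtype.val h)

end Char0

section Ord

variable {L : Type*} [Field L] [Algebra ℚ L] [IsAlgClosed L] (ι : L →+* ℂ) (N p : ℕ) [NeZero N]
  [hp : Fact p.Prime]

include ι in
/-- `u(q^d)` is a unit at the places where `j` is regular. -/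
theorem ord_ud {d : ℕ} [NeZero d] (hd : d ∣ N) {E : IntermediateField L (LaurentSeries L)}
    [IsFF L E] (hE : E = modularFunctionFieldFullC L (N * p)) (u j : E)
    (hu : (u : LaurentSeries L) = qExpand L d (uL L p)) (hj : (j : LaurentSeries L) = jqModC L)
    (v : Place L E) (hv : 0 ≤ v.ord j) : v.ord u = 0 := by
  subst hE
  have hdp : p * d ∣ N * p := by
    rw [mul_comm]
    exact Nat.mul_dvd_mul_right hd p
  let θ : modularFunctionFieldFullC L p →ₐ[L] modularFunctionFieldFullC L (N * p) := th L hdp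
  have hθ : θ.toRingHom.IsIntegral := HeckeRed.isIntegral_of_isFF θ
  have hup : uL L p ∈ modularFunctionFieldFullC L p := uL_mem_p ι p
  have hjp : jqModC L ∈ modularFunctionFieldFullC L p := jqModC_mem_full L p
  have e1 : θ ⟨uL L p, hup⟩ = u := Subtype.ext ((coe_th hdp _).trans hu.symm)
  have h1 := Place.ord_restrictAlong θ hθ v ⟨uL L p, hup⟩
  have h2 := Place.ord_restrictAlong θ hθ v ⟨jqModC L, hjp⟩
  rw [e1] at h1
  have he : 0 < (Place.ramificationIndexAlong θ v : ℤ) := by
    let _ := algebraAlong θ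
    have _ := isScalarTower_along θ
    have _ := isIntegral_along θ hθ
    exact_mod_cast v.ramificationIndex_pos (F := modularFunctionFieldFullC L p)
  have hv' : 0 ≤ v.ord (θ ⟨jqModC L, hjp⟩) := by
    by_contra hcon
    push Not at hcon
    have := (KPr.ord_neg_iff (F := modularFunctionFieldFullC L (N * p)) (j := j)
      (h := θ ⟨jqModC L, hjp⟩) hj (Q := d) (coe_th hdp _) v).2 hcon
    omega
  have h3 : 0 ≤ (v.restrictAlong θ hθ).ord (⟨jqModC L, hjp⟩ : modularFunctionFieldFullC L p) := by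
    by_contra hcon
    push Not at hcon
    rw [h2] at hv'
    exact absurd (mul_neg_of_pos_of_neg he hcon) (not_lt.mpr hv')
  rw [h1, ord_uL ι p rfl ⟨uL L p, hup⟩ ⟨jqModC L, hjp⟩ rfl rfl _ h3, mul_zero]

include ι in
/-- **`v₀` is a unit at the places where `j` is regular.** -/
theorem ord_v (h4 : 4 ∣ N) {x : LaurentSeries L} (hx : IsV L p x)
    {E : IntermediateField L (LaurentSeries L)} [IsFF L E]
    (hE : E = modularFunctionFieldFullC L (N * p)) (v j : E)
    (hv : (v : LaurentSeries L) = x) (hj : (j : LaurentSeries L) = jqModC L)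
    (P : Place L E) (hP : 0 ≤ P.ord j) : P.ord v = 0 := by
  have hv0 : v ≠ 0 := by
    rintro rfl
    exact hx.ne_zero hv.symm
  have h2N : 2 ∣ N := (by norm_num : 2 ∣ 4).trans h4
  have hdp : ∀ d, d ∣ N → p * d ∣ N * p := fun d hd => by
    rw [mul_comm]
    exact Nat.mul_dvd_mul_right hd p
  have hm : ∀ (d : ℕ) [NeZero d], d ∣ N → qExpand L d (uL L p) ∈ E := fun d _ hd => by
    rw [hE]
    exact qExpand_mem_dvd L (hdp d hd) (uL_mem_p ι p)
  have m1 : uL L p ∈ E := by
    have := hm 1 (one_dvd N)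
    rwa [qExpand_one_apply] at this
  let u1 : E := ⟨uL L p, m1⟩
  let u2 : E := ⟨qExpand L 2 (uL L p), hm 2 h2N⟩
  let u4 : E := ⟨qExpand L 4 (uL L p), hm 4 h4⟩
  have n1 : u1 ≠ 0 := fun h => uL_ne_zero p L (congrArg Subtype.val h)
  have n2 : u2 ≠ 0 := fun h =>
    qExpand_ne_zero' (p := 2) (uL_ne_zero p L) (congrArg Subtype.val h)
  have n4 : u4 ≠ 0 := fun h => uL_ne_zero p L
    ((map_eq_zero_iff _ (qExpand_injective 4)).mp (congrArg Subtype.val h))
  have o1 : P.ord u1 = 0 :=
    ord_ud ι N p (one_dvd N) hE u1 j (qExpand_one_apply _).symm hj P hP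
  have o2 : P.ord u2 = 0 := ord_ud ι N p h2N hE u2 j rfl hj P hP
  have o4 : P.ord u4 = 0 := ord_ud ι N p h4 hE u4 j rfl hj P hP
  have key : v ^ 6 * u1 ^ 2 * u4 ^ 2 = u2 ^ 5 := by
    apply Subtype.ext
    show (v : LaurentSeries L) ^ 6 * _ * _ = _
    rw [hv]
    exact hx.pow6
  have h := congrArg P.ord key
  rw [P.ord_mul (mul_ne_zero (pow_ne_zero _ hv0) (pow_ne_zero _ n1)) (pow_ne_zero _ n4),
    P.ord_mul (pow_ne_zero _ hv0) (pow_ne_zero _ n1), PlaceLemmas.ord_pow, PlaceLemmas.ord_pow,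
    PlaceLemmas.ord_pow, PlaceLemmas.ord_pow, o1, o2, o4] at h
  push_cast at h
  omega

end Ord

end Fermat.Agent.LU2
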