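import Fermat.Agent.LU2.W

/-!
# S39/S40, U2: Hecke operators on the unit of slope two
-/

set_option autoImplicit false
set_option maxHeartbeats 400000
set_option linter.unusedSectionVars false

noncomputable section

open HahnSeries ModularCurve AlgebraicCurve

attribute [-instance] Fermat.Agent.X0Places.ffField Fermat.Agent.X0Places.ffAlgebra

namespace Fermat.Agent.LU2

open Fermat.Agent.FunField Fermat.Agent.FunField.PlaceLemmas
open Fermat.Agent.X0Places (FF)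
open Fermat.Agent.MzCusp (uL uL_ne_zero)
open Fermat.Agent.HeckeRed Fermat.Agent.ModPoly Fermat.Agent.ModDeg Fermat.Agent.LLu

section Conj

variable {L : Type*} [Field L]

/-- the conjugates of `F(q^d)` -/
theorem conjL_qExpand (l : ℕ) [NeZero l] (v : Lˣ) (d : ℕ) [NeZero d] (i : Option (Fin l))
    (F : LaurentSeries L) :
    conjL l v i (qExpand L d F) = qExpand L d (conjL l (v ^ d) i F) := by
  cases i with
  | none =>
    show qExpand L l (qExpand L l (qExpand L d F)) = qExpand L d (qExpand L l (qExpand L l F))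
    have hc : ∀ G : LaurentSeries L, qExpand L l (qExpand L d G) = qExpand L d (qExpand L l G) := by
      intro G
      have : NeZero (l * d) := ⟨mul_ne_zero (NeZero.ne l) (NeZero.ne d)⟩
      have : NeZero (d * l) := ⟨mul_ne_zero (NeZero.ne d) (NeZero.ne l)⟩
      rw [qExpand_qExpand, qExpand_qExpand, qExpand_congr (mul_comm l d)]
    rw [hc, hc]
  | some b =>
    show twist (v ^ (b : ℕ)) (qExpand L d F) = qExpand L d (twist ((v ^ d) ^ (b : ℕ)) F)
    rw [twist_qExpand, ← pow_mul, ← pow_mul, mul_comm]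

/-- algebra for the product formula -/
theorem aux {F : Type*} [Field F] (Q : F →+* F) (hQ : Function.Injective Q)
    {X x u1 u2 u4 c1 c2 c4 d1 d4 : F} (n : ℕ)
    (key : X ^ 6 * Q (c1 * u1 ^ n) ^ 2 * Q (c4 * u4 ^ n) ^ 2 = Q (c2 * u2 ^ n) ^ 5)
    (rel : x ^ 6 * u1 ^ 2 * u4 ^ 2 = u2 ^ 5) (h1 : c1 * d1 = 1) (h4 : c4 * d4 = 1)
    (hu1 : u1 ≠ 0) (hu4 : u4 ≠ 0) :
    X ^ 6 = Q (c2 ^ 5 * d1 ^ 2 * d4 ^ 2 * (x ^ n) ^ 6) := by
  have hc1 : c1 ≠ 0 := left_ne_zero_of_mul_eq_one h1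
  have hc4 : c4 ≠ 0 := left_ne_zero_of_mul_eq_one h4
  have hQ0 : ∀ y : F, y ≠ 0 → Q y ≠ 0 := fun y hy h => hy ((map_eq_zero_iff _ hQ).mp h)
  have hne : Q (c1 * u1 ^ n) ^ 2 * Q (c4 * u4 ^ n) ^ 2 ≠ 0 :=
    mul_ne_zero (pow_ne_zero _ (hQ0 _ (mul_ne_zero hc1 (pow_ne_zero _ hu1))))
      (pow_ne_zero _ (hQ0 _ (mul_ne_zero hc4 (pow_ne_zero _ hu4))))
  apply mul_right_cancel₀ hne
  rw [← mul_assoc, key, ← map_pow, ← map_pow, ← map_pow, ← map_mul, ← map_mul]
  congr 1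
  have h6 : (x ^ n) ^ 6 * (u1 ^ n) ^ 2 * (u4 ^ n) ^ 2 = (u2 ^ n) ^ 5 := by
    calc (x ^ n) ^ 6 * (u1 ^ n) ^ 2 * (u4 ^ n) ^ 2
        = (x ^ 6 * u1 ^ 2 * u4 ^ 2) ^ n := by ring
      _ = (u2 ^ n) ^ 5 := by rw [rel]; ring
  calc (c2 * u2 ^ n) ^ 5 = c2 ^ 5 * (u2 ^ n) ^ 5 := by ring
    _ = c2 ^ 5 * ((x ^ n) ^ 6 * (u1 ^ n) ^ 2 * (u4 ^ n) ^ 2) := by rw [h6]
    _ = c2 ^ 5 * ((c1 * d1) ^ 2 * (c4 * d4) ^ 2) *
        ((x ^ n) ^ 6 * (u1 ^ n) ^ 2 * (u4 ^ n) ^ 2) := by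
      rw [h1, h4, one_pow, mul_one, mul_one]
    _ = c2 ^ 5 * d1 ^ 2 * d4 ^ 2 * (x ^ n) ^ 6 *
        ((c1 * u1 ^ n) ^ 2 * (c4 * u4 ^ n) ^ 2) := by ring

end Conj

variable {L : Type*} [Field L] [Algebra ℚ L] [IsAlgClosed L] (ι : L →+* ℂ) (N p : ℕ) [NeZero N]
  [hp : Fact p.Prime]

include ι in
/-- the product formula for `u(q^d)` -/
theorem prod_conj_ud {d : ℕ} [NeZero d] {l : ℕ} [hl : Fact l.Prime] (hlp : l ≠ p) (hld : ¬ l ∣ d)
    {v : Lˣ} (hv : IsPrimitiveRoot v l) :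
    ∃ c : L, c ≠ 0 ∧ ∏ i, conjL l v i (qExpand L d (uL L p)) =
      qExpand L l (algebraMap L (LaurentSeries L) c * (qExpand L d (uL L p)) ^ (l + 1)) := by
  have hv' : IsPrimitiveRoot (v ^ d) l :=
    hv.pow_of_coprime d ((Nat.coprime_comm.mp ((Nat.Prime.coprime_iff_not_dvd hl.out).mpr hld)))
  obtain ⟨c, hc, h⟩ := prod_conj_uL ι p hlp hv'
  refine ⟨c, hc, ?_⟩
  have h1 : ∏ i, conjL l v i (qExpand L d (uL L p)) =
      qExpand L d (∏ i, conjL l (v ^ d) i (uL L p)) := by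
    rw [map_prod]
    exact Finset.prod_congr rfl fun i _ => conjL_qExpand l v d i _
  rw [h1, h]
  have hc : ∀ G : LaurentSeries L, qExpand L d (qExpand L l G) = qExpand L l (qExpand L d G) := by
    intro G
    have : NeZero (l * d) := ⟨mul_ne_zero (NeZero.ne l) (NeZero.ne d)⟩
    have : NeZero (d * l) := ⟨mul_ne_zero (NeZero.ne d) (NeZero.ne l)⟩
    rw [qExpand_qExpand, qExpand_qExpand, qExpand_congr (mul_comm d l)]
  rw [hc, map_mul, map_pow]
  congr 2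
  exact (qExpandAlgHomC L d).commutes c

include ι in
/-- the product formula for the unit of slope two, up to sixth powers -/
theorem prod_conj_v {x : LaurentSeries L} (hx : IsV L p x) {l : ℕ} [hl : Fact l.Prime]
    (hlp : l ≠ p) (hl2 : l ≠ 2) {v : Lˣ} (hv : IsPrimitiveRoot v l) :
    ∃ c : L, c ≠ 0 ∧ (∏ i, conjL l v i x) ^ 6 =
      qExpand L l (algebraMap L (LaurentSeries L) c * (x ^ (l + 1)) ^ 6) := by
  have h2 : ¬ l ∣ 2 := fun h => hl2 ((Nat.prime_dvd_prime_iff_eq hl.out Nat.prime_two).mp h)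
  have h4 : ¬ l ∣ 4 := fun h => h2 (hl.out.dvd_of_dvd_pow (by norm_num; exact h : l ∣ 2 ^ 2))
  obtain ⟨c1, hc1, e1⟩ := prod_conj_uL ι p hlp hv
  obtain ⟨c2, hc2, e2⟩ := prod_conj_ud ι p (d := 2) hlp h2 hv
  obtain ⟨c4, hc4, e4⟩ := prod_conj_ud ι p (d := 4) hlp h4 hv
  have key : (∏ i, conjL l v i x) ^ 6 * (∏ i, conjL l v i (uL L p)) ^ 2 *
      (∏ i, conjL l v i (qExpand L 4 (uL L p))) ^ 2 =
      (∏ i, conjL l v i (qExpand L 2 (uL L p))) ^ 5 := by
    rw [← Finset.prod_pow, ← Finset.prod_pow, ← Finset.prod_pow, ← Finset.prod_pow,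
      ← Finset.prod_mul_distrib, ← Finset.prod_mul_distrib]
    refine Finset.prod_congr rfl fun i _ => ?_
    have h := congrArg (conjL l v i) hx.pow6
    rwa [map_mul, map_mul, map_pow, map_pow, map_pow, map_pow] at h
  rw [e1, e2, e4] at key
  have hu10 : uL L p ≠ 0 := uL_ne_zero p L
  refine ⟨c2 ^ 5 * (c1⁻¹) ^ 2 * (c4⁻¹) ^ 2, by
    refine mul_ne_zero (mul_ne_zero (pow_ne_zero _ hc2) (pow_ne_zero _ (inv_ne_zero hc1)))
      (pow_ne_zero _ (inv_ne_zero hc4)), ?_⟩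
  have h := aux (qExpand L l) (qExpand_injective l) (l + 1) key hx.pow6
    (d1 := algebraMap L (LaurentSeries L) (c1⁻¹)) (d4 := algebraMap L (LaurentSeries L) (c4⁻¹))
    (by rw [← map_mul, mul_inv_cancel₀ hc1, map_one])
    (by rw [← map_mul, mul_inv_cancel₀ hc4, map_one]) hu10
    (fun h => hu10 ((map_eq_zero_iff _ (qExpand_injective 4)).mp h))
  rw [h, map_mul (algebraMap L (LaurentSeries L)), map_mul (algebraMap L (LaurentSeries L)),
    map_pow (algebraMap L (LaurentSeries L)), map_pow (algebraMap L (LaurentSeries L)),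
    map_pow (algebraMap L (LaurentSeries L))]

include ι in
/-- **`T_l v₀ = c v₀^{l+1}`** at level `N p`. -/
theorem norm_v (h4 : 4 ∣ N) {x : LaurentSeries L} (hx : IsV L p x)
    {l : ℕ} [hl : Fact l.Prime] (hlp : l ≠ p) (hlN : ¬ l ∣ N)
    {E E' : IntermediateField L (LaurentSeries L)}
    (hE : E = modularFunctionFieldFullC L (N * p))
    (hE' : E' = modularFunctionFieldFullC L (N * p * l))
    (α β : E →ₐ[L] E') (hα : ∀ x, (α x : LaurentSeries L) = x)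
    (hβ : ∀ x, (β x : LaurentSeries L) = qExpand L l (x : LaurentSeries L))
    (v : E) (hv : (v : LaurentSeries L) = x) :
    ∃ c : L, c ≠ 0 ∧ normAlong α (β v) = algebraMap L E c * v ^ (l + 1) := by
  have : CharZero L := algebraRat.charZero L
  have hlL : (l : L) ≠ 0 := by exact_mod_cast hl.out.ne_zero
  have hl2 : l ≠ 2 := by
    rintro rfl
    exact hlN ((by norm_num : 2 ∣ 4).trans h4)
  obtain ⟨r, hr⟩ := ModDeg.exists_primitiveRoot_unit hl.out hlL
  obtain ⟨c, hc, h⟩ := prod_conj_v ι p hx hlp hl2 hr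
  have hlNp : ¬ l ∣ N * p := by
    rw [hl.out.dvd_mul]
    rintro (h | h)
    · exact hlN h
    · exact hlp ((Nat.prime_dvd_prime_iff_eq hl.out hp.out).mp h)
  have h1 := qExpand_normAlong hE hE' α β hα hβ hlNp hr v
  rw [hv] at h1
  rw [← h1, ← map_pow] at h
  have h2 := qExpand_injective l h
  have hv0 : v ≠ 0 := by
    rintro rfl
    exact hx.ne_zero hv.symm
  have h3 : (normAlong α (β v)) ^ 6 = algebraMap L E c * (v ^ (l + 1)) ^ 6 := by
    apply Subtype.ext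
    refine h2.trans ?_
    rw [← hv]
    rfl
  have h4' : (normAlong α (β v) * (v ^ (l + 1))⁻¹) ^ 6 = algebraMap L E c := by
    rw [mul_pow, h3, inv_pow, mul_assoc, mul_inv_cancel₀ (pow_ne_zero _ (pow_ne_zero _ hv0)),
      mul_one]
  obtain ⟨b, hb, hb'⟩ := exists_eq_algebraMap_of_pow (by norm_num) h4'
  refine ⟨b, ?_, ?_⟩
  · rintro rfl
    rw [zero_pow (by norm_num)] at hb
    exact hc hb.symm
  · rw [← hb', mul_assoc, inv_mul_cancel₀ (pow_ne_zero _ hv0), mul_one]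

include ι in
/-- **`T_l (div v₀) = (l + 1) div v₀`.** -/
theorem correspondence_v (h4 : 4 ∣ N) {x : LaurentSeries L} (hx : IsV L p x)
    {l : ℕ} [hl : Fact l.Prime] (hlp : l ≠ p) (hlN : ¬ l ∣ N)
    {E E' : IntermediateField L (LaurentSeries L)} [IsFF L E] [IsFF L E']
    (hE : E = modularFunctionFieldFullC L (N * p))
    (hE' : E' = modularFunctionFieldFullC L (N * p * l))
    (α β : E →ₐ[L] E') (hα : ∀ x, (α x : LaurentSeries L) = x)
    (hβ : ∀ x, (β x : LaurentSeries L) = qExpand L l (x : LaurentSeries L))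
    (hβi : β.toRingHom.IsIntegral) (hαi : α.toRingHom.IsIntegral)
    (v : E) (hv : (v : LaurentSeries L) = x) :
    Divisor.correspondence β α hβi hαi (divOf v) = ((l : ℤ) + 1) • divOf v := by
  have hv0 : v ≠ 0 := by
    rintro rfl
    exact hx.ne_zero hv.symm
  obtain ⟨c, hc, h⟩ := norm_v ι N p h4 hx hlp hlN hE hE' α β hα hβ v hv
  rw [correspondence_divOf β α hβi hαi (finiteAlong_of_isFF α) hv0, h,
    TorsInj.divOf_mul (by simpa using hc) (pow_ne_zero _ hv0), TorsInj.divOf_algebraMap, zero_add,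
    TorsInj.divOf_pow]
  module

end Fermat.Agent.LU2
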