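import Fermat.Agent.LU2.Abs

/-!
# S39/S40, U2: the Atkin-Lehner involution `w_p` on the unit of slope two
-/

set_option autoImplicit false
set_option maxHeartbeats 400000
set_option linter.unusedSectionVars false

noncomputable section

open HahnSeries ModularCurve AlgebraicCurve

attribute [-instance] Fermat.Agent.X0Places.ffField Fermat.Agent.X0Places.ffAlgebra

namespace Fermat.Agent.LU2

open Fermat.Agent.FunField Fermat.Agent.FunField.PlaceLemmas
open Fermat.Agent.X0Places (FF)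
open Fermat.Agent.MzCusp (uL uL_ne_zero)
open Fermat.Agent.HeckeRed Fermat.Agent.ModPoly Fermat.Agent.ModDeg Fermat.Agent.LLu

variable {L : Type*} [Field L] [IsAlgClosed L] {M K p : ℕ} [NeZero M] [NeZero K]
  [hp : Fact p.Prime]

/-- `w_p` commutes with the degeneracy maps `f(q) ↦ f(q^d)`. -/
theorem w_th {d : ℕ} [NeZero d] (h : M * d ∣ K) (h' : M * p * d ∣ K * p)
    (hML : (M : L) ≠ 0) (hKL : (K : L) ≠ 0) (hpL : (p : L) ≠ 0) (hpM : ¬ p ∣ M) (hpK : ¬ p ∣ K)
    (x : modularFunctionFieldFullC L (M * p)) :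
    AtkinLehner.w hKL hpL hpK (th L h' x) = th L h' (AtkinLehner.w hML hpL hpM x) := by
  have hd0 : d ≠ 0 := NeZero.ne d
  have hKp0 : K * p ≠ 0 := mul_ne_zero (NeZero.ne K) hp.out.ne_zero
  have key : ((AtkinLehner.w hKL hpL hpK : modularFunctionFieldFullC L (K * p) →+*
        modularFunctionFieldFullC L (K * p)).comp
        (th L h' : modularFunctionFieldFullC L (M * p) →+* modularFunctionFieldFullC L (K * p))) =
      (th L h' : modularFunctionFieldFullC L (M * p) →+* modularFunctionFieldFullC L (K * p)).comp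
        (AtkinLehner.w hML hpL hpM : modularFunctionFieldFullC L (M * p) →+*
        modularFunctionFieldFullC L (M * p)) := by
    refine AtkinLehner.ringHom_ext _ _ (fun c => ?_) (fun e he he0 => ?_)
    · show AtkinLehner.w hKL hpL hpK (th L h' (algebraMap L _ c)) =
        th L h' (AtkinLehner.w hML hpL hpM (algebraMap L _ c))
      rw [AlgHom.commutes, AlgEquiv.commutes, AlgEquiv.commutes, AlgHom.commutes]
    · show AtkinLehner.w hKL hpL hpK (th L h' ⟨vj L e, _⟩) =
        th L h' (AtkinLehner.w hML hpL hpM ⟨vj L e, _⟩)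
      have hdiv : ∀ e', e' ∣ M * p → e' ≠ 0 → e' * d ∣ K * p := fun e' h1 _ =>
        (Nat.mul_dvd_mul_right h1 d).trans h'
      have hth : ∀ e' (h1 : e' ∣ M * p) (h2 : e' ≠ 0),
          th L h' ⟨vj L e', vj_mem_full L h2 h1⟩ =
            ⟨vj L (e' * d), vj_mem_full L (mul_ne_zero h2 hd0) (hdiv e' h1 h2)⟩ := fun e' h1 h2 =>
        Subtype.ext (qExpand_vj L d e' h2)
      by_cases hpe : p ∣ e
      · obtain ⟨a, rfl⟩ := hpe
        have ha : a ∣ M := by
          rw [mul_comm] at he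
          exact Nat.dvd_of_mul_dvd_mul_right hp.out.pos he
        have ha0 : a ≠ 0 := right_ne_zero_of_mul he0
        have e1 : AtkinLehner.w hML hpL hpM ⟨vj L (p * a), vj_mem_full L he0 he⟩ =
            ⟨vj L a, vj_mem_full L ha0 (ha.trans (Dvd.intro p rfl))⟩ := by
          apply Subtype.ext
          have h1 : ∀ (q : ℕ) (hq : q = a * p) (h2 : vj L q ∈ modularFunctionFieldFullC L (M * p)),
              (AtkinLehner.w hML hpL hpM ⟨vj L q, h2⟩ : LaurentSeries L) = vj L a := by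
            rintro q rfl h2
            exact AtkinLehner.w_vj_mul hML hpL hpM ha h2
          exact h1 _ (mul_comm p a) _
        rw [hth _ he he0, e1, hth a (ha.trans (Dvd.intro p rfl)) ha0]
        apply Subtype.ext
        have h1 : ∀ (q : ℕ) (hq : q = a * d * p) (h2 : vj L q ∈ modularFunctionFieldFullC L (K * p)),
            (AtkinLehner.w hKL hpL hpK ⟨vj L q, h2⟩ : LaurentSeries L) = vj L (a * d) := by
          rintro q rfl h2
          exact AtkinLehner.w_vj_mul hKL hpL hpK ((Nat.mul_dvd_mul_right ha d).trans h) h2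
        exact h1 _ (by ring) _
      · have he' : e ∣ M := (Nat.Coprime.dvd_of_dvd_mul_right
          ((Nat.coprime_comm.mp ((Nat.Prime.coprime_iff_not_dvd hp.out).mpr hpe))) he)
        have e1 : AtkinLehner.w hML hpL hpM ⟨vj L e, vj_mem_full L he0 he⟩ =
            ⟨vj L (e * p), vj_mem_full L (mul_ne_zero he0 hp.out.ne_zero)
              (Nat.mul_dvd_mul_right he' p)⟩ :=
          Subtype.ext (AtkinLehner.w_vj hML hpL hpM he' _)
        rw [hth e he he0, e1, hth (e * p) (Nat.mul_dvd_mul_right he' p)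
          (mul_ne_zero he0 hp.out.ne_zero)]
        apply Subtype.ext
        rw [AtkinLehner.w_vj hKL hpL hpK ((Nat.mul_dvd_mul_right he' d).trans h)]
        show vj L (e * d * p) = vj L (e * p * d)
        congr 1
        ring
  exact DFunLike.congr_fun key x

section Unit

variable [Algebra ℚ L] (ι : L →+* ℂ) (N : ℕ) [NeZero N]
  (hNK : (N : L) ≠ 0) (hpK : (p : L) ≠ 0) (hpN : ¬ p ∣ N)

include ι in
/-- `w_p u(q^d) · u(q^d) = p¹²` -/
theorem w_ud {d : ℕ} [NeZero d] (hd : d ∣ N) (u : modularFunctionFieldFullC L (N * p))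
    (hu : (u : LaurentSeries L) = qExpand L d (uL L p)) :
    AtkinLehner.w hNK hpK hpN u * u =
      algebraMap L (modularFunctionFieldFullC L (N * p)) ((p : L) ^ 12) := by
  have h1 : 1 * d ∣ N := by rwa [one_mul]
  have h2 : 1 * p * d ∣ N * p := by
    rw [one_mul, mul_comm]
    exact Nat.mul_dvd_mul_right hd p
  have h1L : ((1 : ℕ) : L) ≠ 0 := by rw [Nat.cast_one]; exact one_ne_zero
  have hp1 : ¬ p ∣ 1 := hp.out.one_lt.not_ge ∘ Nat.le_of_dvd one_pos
  have e : u = th L h2 (u0 ι 1 p) := by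
    apply Subtype.ext
    rw [hu, coe_th, coe_u0]
  rw [e, w_th h1 h2 h1L hNK hpK hp1 hpN, ← map_mul, w_u0 ι 1 p h1L hpK hp1, AlgHom.commutes]

/-- a root of a constant is a constant -/
theorem exists_eq_algebraMap_of_pow {F : Type*} [Field F] [Algebra L F] {y : F} {n : ℕ}
    (hn : n ≠ 0) {a : L} (h : y ^ n = algebraMap L F a) :
    ∃ b : L, b ^ n = a ∧ y = algebraMap L F b := by
  have hint : IsIntegral L y := by
    refine ⟨Polynomial.X ^ n - Polynomial.C a, Polynomial.monic_X_pow_sub_C a hn, ?_⟩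
    rw [Polynomial.eval₂_sub, Polynomial.eval₂_X_pow, Polynomial.eval₂_C, h, sub_self]
  obtain ⟨b, hb⟩ : y ∈ (algebraMap L F).range := by
    have h2 := minpoly.irreducible hint
    have h3 := IsAlgClosed.degree_eq_one_of_irreducible L h2
    exact minpoly.mem_range_of_degree_eq_one L y h3
  refine ⟨b, ?_, hb.symm⟩
  apply (algebraMap L F).injective
  rw [map_pow, hb, h]

include ι in
/-- **`w_p v₀ · v₀` is a constant `c` with `c⁶ = p¹²`.** -/
theorem w_v0 (h4 : 4 ∣ N) {x : LaurentSeries L} (hx : IsV L p x) :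
    ∃ c : L, c ^ 6 = (p : L) ^ 12 ∧ AtkinLehner.w hNK hpK hpN (v0 h4 hx) * v0 h4 hx =
      algebraMap L (modularFunctionFieldFullC L (N * p)) c := by
  have h2N : 2 ∣ N := (by norm_num : 2 ∣ 4).trans h4
  have hdp : ∀ d, d ∣ N → p * d ∣ N * p := fun d hd => by
    rw [mul_comm]
    exact Nat.mul_dvd_mul_right hd p
  have hm : ∀ (d : ℕ) [NeZero d], d ∣ N →
      qExpand L d (uL L p) ∈ modularFunctionFieldFullC L (N * p) := fun d _ hd =>
    qExpand_mem_dvd L (hdp d hd) (uL_mem_p ι p)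
  let u1 : modularFunctionFieldFullC L (N * p) := ⟨qExpand L 1 (uL L p), hm 1 (one_dvd N)⟩
  let u2 : modularFunctionFieldFullC L (N * p) := ⟨qExpand L 2 (uL L p), hm 2 h2N⟩
  let u4 : modularFunctionFieldFullC L (N * p) := ⟨qExpand L 4 (uL L p), hm 4 h4⟩
  have w1 := w_ud ι N hNK hpK hpN (one_dvd N) u1 rfl
  have w2 := w_ud ι N hNK hpK hpN h2N u2 rfl
  have w4 := w_ud ι N hNK hpK hpN h4 u4 rfl
  have key : (v0 h4 hx) ^ 6 * u1 ^ 2 * u4 ^ 2 = u2 ^ 5 := by
    apply Subtype.ext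
    show x ^ 6 * (qExpand L 1 (uL L p)) ^ 2 * _ = _
    rw [qExpand_one_apply]
    exact hx.pow6
  have key' := congrArg (AtkinLehner.w hNK hpK hpN) key
  rw [map_mul, map_mul, map_pow, map_pow, map_pow, map_pow] at key'
  set w := AtkinLehner.w hNK hpK hpN with hw
  set P : modularFunctionFieldFullC L (N * p) := algebraMap L _ ((p : L) ^ 12) with hP
  have hP0 : P ≠ 0 := by
    rw [hP, Ne, map_eq_zero]
    exact pow_ne_zero _ hpK
  have h1 : (w (v0 h4 hx) * v0 h4 hx) ^ 6 * (P ^ 2 * P ^ 2) = P ^ 5 := by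
    calc (w (v0 h4 hx) * v0 h4 hx) ^ 6 * (P ^ 2 * P ^ 2)
        = (w (v0 h4 hx) * v0 h4 hx) ^ 6 * ((w u1 * u1) ^ 2 * (w u4 * u4) ^ 2) := by rw [w1, w4]
      _ = (w (v0 h4 hx) ^ 6 * w u1 ^ 2 * w u4 ^ 2) * ((v0 h4 hx) ^ 6 * u1 ^ 2 * u4 ^ 2) := by ring
      _ = (w u2 * u2) ^ 5 := by rw [key', key, mul_pow]
      _ = P ^ 5 := by rw [w2]
  have h2 : (w (v0 h4 hx) * v0 h4 hx) ^ 6 = algebraMap L _ ((p : L) ^ 12) := by
    have h3 : P ^ 2 * P ^ 2 ≠ 0 := mul_ne_zero (pow_ne_zero _ hP0) (pow_ne_zero _ hP0)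
    apply mul_right_cancel₀ h3
    rw [h1, ← hP]
    ring
  obtain ⟨c, hc, hc'⟩ := exists_eq_algebraMap_of_pow (by norm_num) h2
  exact ⟨c, hc, hc'⟩

end Unit

end Fermat.Agent.LU2
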